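import Mathlib
import Fermat.Agent.LT.T7.H305.MatchSpec

/-!
# Row LT, tower T7, leaf C2.7.11.E `EnumExistsC311` (helper388, SPARE): THE CORE, PROVED

OFF-MAIN.  No hole, nothing assumed.  ADDITIVE (new names only, suffix `388`).  Imports:
Mathlib + `T7/H305/MatchSpec.lean` v2 (helper305, sha256 0e8798b2) only.

    enumExists388 (K K') : (the body of `H311.EnumExistsC311 K K'`, VERBATIM)

`K'/K` Galois of prime degree `l` with generator `σ = D.s.σ`, `v` a finite place of `K` outside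
`T₀` (unramified) with two places `w₁ ≠ w₂` of `K'` over it.  Then `w j = σ^{-j}(w₁)` is an
enumeration of places over `v` with `w j = σ(w (j+1))`, `w j ≠ w 0` for `0 < j < l`, and there
are identifications `i j : K_v ≃ K'_{w j}` which extend `K → K'` and preserve the valuation.

Proof.  `s` = the element of `Gal(K'/K)` defined by `σ` (`σ` fixes `K`: `IsCompData.base`,
`IsCyclicOfDegree.fixed`).  `smulPlace388 g w` = the place `g • w` (pointwise action on ideals).
* over `v`: the Galois group fixes the image of `𝓞 K`;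
* `PlaceRel`: `map (mapRingEquiv σ) I = s • I`, `s • (s^{j+1})⁻¹ • P = (s^j)⁻¹ • P`;
* distinct: the stabiliser of `w₁` in the group of prime order `l` is trivial (it is not the
  whole group: the Galois group acts transitively on the places over `v`,
  `Ideal.exists_smul_eq_of_isGaloisGroup`, and `w₂ ≠ w₁`); `s^j = 1` contradicts
  `IsCyclicOfDegree.faithful`;
* `i j`: `T6.InstSplitC` (`N (w j) = N v`: `g e f = l`, `g ≠ 1`, so `f = 1`; unramified:
  `UnramOut305`).
The same statement serves the quadratic step (`K = ℚ`, `l = 2`).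
-/

set_option autoImplicit false

open AutomorphicForm IsDedekindDomain NumberField MeasureTheory
open scoped Pointwise

noncomputable section

namespace Fermat.Agent.LT.T7.H388

open Fermat.Agent.LT.H556 Fermat.Agent.LT.H556.A0 Fermat.Agent.LT.T7 Fermat.Agent.LT.T7.H305
open Fermat.Agent.LT

variable {K K' : Type} [Field K] [NumberField K] [Field K'] [NumberField K'] [Algebra K K']

theorem coe_smulE388 (g : Gal(K'/K)) (x : 𝓞 K') : ((g • x : 𝓞 K') : K') = g (x : K') := rfl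

theorem smul_algebraMapE388 (g : Gal(K'/K)) (x : 𝓞 K) (y : 𝓞 K')
    (hy : (y : K') = algebraMap K K' (x : K)) : g • y = y := by
  apply RingOfIntegers.ext
  rw [coe_smulE388, hy, AlgEquiv.commutes]

/-- The image of a place under an element of the Galois group. -/
def smulPlace388 (g : Gal(K'/K)) (w : HeightOneSpectrum (𝓞 K')) : HeightOneSpectrum (𝓞 K') where
  asIdeal := g • w.asIdeal
  isPrime := haveI := w.isPrime; Ideal.IsPrime.smul g
  ne_bot := by
    intro h
    apply w.ne_bot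
    have h2 : g⁻¹ • (g • w.asIdeal) = g⁻¹ • (⊥ : Ideal (𝓞 K')) := by rw [h]
    rw [inv_smul_smul] at h2
    rw [h2]
    exact smul_zero (A := Ideal (𝓞 K')) g⁻¹

theorem smulPlace_asIdeal388 (g : Gal(K'/K)) (w : HeightOneSpectrum (𝓞 K')) :
    (smulPlace388 g w).asIdeal = g • w.asIdeal := rfl

theorem placeOver_smul388 {v : HeightOneSpectrum (𝓞 K)} {w : HeightOneSpectrum (𝓞 K')}
    (h : PlaceOver K K' v w) (g : Gal(K'/K)) : PlaceOver K K' v (smulPlace388 g w) := by
  intro x y hy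
  rw [smulPlace_asIdeal388, Ideal.mem_pointwise_smul_iff_inv_smul_mem,
    smul_algebraMapE388 g⁻¹ x y hy]
  exact h x y hy

/-- `map e I = s • I` when the ring automorphism `e` of `𝓞 K'` is the action of `s`. -/
theorem map_eq_smul388 (e : 𝓞 K' ≃+* 𝓞 K') (s : Gal(K'/K)) (he : ∀ x : 𝓞 K', e x = s • x)
    (I : Ideal (𝓞 K')) : Ideal.map e I = s • I := by
  ext y
  rw [Ideal.mem_pointwise_smul_iff_inv_smul_mem]
  constructor
  · intro hy
    obtain ⟨x, hx, rfl⟩ := (Ideal.mem_map_of_equiv e y).1 hy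
    rw [he, inv_smul_smul]
    exact hx
  · intro hy
    refine (Ideal.mem_map_of_equiv e y).2 ⟨s⁻¹ • y, hy, ?_⟩
    rw [he, smul_inv_smul]

theorem pow_apply388 (σ : K' ≃+* K') (s : Gal(K'/K)) (hs : ∀ x : K', s x = σ x) (j : ℕ)
    (x : K') : (s ^ j) x = (σ ^ j) x := by
  induction j generalizing x with
  | zero => rfl
  | succ j ih =>
    rw [pow_succ, pow_succ, AlgEquiv.mul_apply, RingAut.mul_apply, hs, ih]

/-- Places over `v` as primes over `v`. -/
theorem liesOver_of_placeOver388 {v : HeightOneSpectrum (𝓞 K)} {w : HeightOneSpectrum (𝓞 K')}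
    (h : PlaceOver K K' v w) : w.asIdeal.LiesOver v.asIdeal := by
  rw [Ideal.liesOver_iff]
  ext x
  exact h x (algebraMap (𝓞 K) (𝓞 K') x) rfl

/-- **At a place with two places over it the residue degree is one.** -/
theorem absNorm_split388 {l : ℕ} (hcyc : IsCycExt K K' l) {v : HeightOneSpectrum (𝓞 K)}
    {w₁ w₂ w : HeightOneSpectrum (𝓞 K')} (h₁ : PlaceOver K K' v w₁) (h₂ : PlaceOver K K' v w₂)
    (hne : w₁ ≠ w₂) (hw : PlaceOver K K' v w) :
    Ideal.absNorm w.asIdeal = Ideal.absNorm v.asIdeal := by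
  haveI := hcyc.galois
  haveI : v.asIdeal.IsPrime := v.isPrime
  haveI : v.asIdeal.IsMaximal := v.isMaximal
  have hfund := Ideal.ncard_primesOver_mul_ramificationIdxIn_mul_inertiaDegIn v.asIdeal (𝓞 K')
    Gal(K'/K)
  rw [IsGalois.card_aut_eq_finrank, hcyc.degree] at hfund
  have hdvd : (Ideal.primesOver v.asIdeal (𝓞 K')).ncard ∣ l := ⟨_, hfund.symm⟩
  have hm₁ : w₁.asIdeal ∈ Ideal.primesOver v.asIdeal (𝓞 K') :=
    ⟨w₁.isPrime, liesOver_of_placeOver388 h₁⟩
  have hm₂ : w₂.asIdeal ∈ Ideal.primesOver v.asIdeal (𝓞 K') :=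
    ⟨w₂.isPrime, liesOver_of_placeOver388 h₂⟩
  have hg1 : (Ideal.primesOver v.asIdeal (𝓞 K')).ncard ≠ 1 := by
    intro h1
    obtain ⟨P₀, hP₀⟩ := Set.ncard_eq_one.mp h1
    rw [hP₀, Set.mem_singleton_iff] at hm₁ hm₂
    exact hne (HeightOneSpectrum.ext (hm₁.trans hm₂.symm))
  have hgl : (Ideal.primesOver v.asIdeal (𝓞 K')).ncard = l :=
    ((Nat.dvd_prime hcyc.prime).mp hdvd).resolve_left hg1
  rw [hgl] at hfund
  have hef : Ideal.ramificationIdxIn v.asIdeal (𝓞 K') * Ideal.inertiaDegIn v.asIdeal (𝓞 K')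
      = 1 :=
    Nat.eq_of_mul_eq_mul_left hcyc.prime.pos (by rw [hfund, mul_one])
  have hf : Ideal.inertiaDegIn v.asIdeal (𝓞 K') = 1 := Nat.eq_one_of_mul_eq_one_left hef
  haveI : w.asIdeal.IsPrime := w.isPrime
  haveI : w.asIdeal.LiesOver v.asIdeal := liesOver_of_placeOver388 hw
  rw [Ideal.inertiaDegIn_eq_inertiaDeg v.asIdeal w.asIdeal Gal(K'/K)] at hf
  have h := Ideal.absNorm_eq_pow_inertiaDeg'_of_liesOver w.asIdeal v.asIdeal v.isPrime v.ne_bot
  rw [Ideal.inertiaDeg'_eq_inertiaDeg, hf, pow_one] at h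
  exact h

/-- **No non-trivial element of the Galois group fixes a place over a place with two places
over it.** -/
theorem stab_trivial388 {l : ℕ} (hcyc : IsCycExt K K' l) {v : HeightOneSpectrum (𝓞 K)}
    {w₁ w₂ : HeightOneSpectrum (𝓞 K')} (h₁ : PlaceOver K K' v w₁) (h₂ : PlaceOver K K' v w₂)
    (hne : w₁ ≠ w₂) (g : Gal(K'/K)) (hg : g • w₁.asIdeal = w₁.asIdeal) : g = 1 := by
  haveI := hcyc.galois
  haveI : v.asIdeal.IsPrime := v.isPrime
  haveI : v.asIdeal.IsMaximal := v.isMaximal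
  haveI : w₁.asIdeal.IsPrime := w₁.isPrime
  haveI : w₂.asIdeal.IsPrime := w₂.isPrime
  haveI : w₁.asIdeal.LiesOver v.asIdeal := liesOver_of_placeOver388 h₁
  haveI : w₂.asIdeal.LiesOver v.asIdeal := liesOver_of_placeOver388 h₂
  have hcard : Nat.card Gal(K'/K) = l := by
    rw [IsGalois.card_aut_eq_finrank, hcyc.degree]
  haveI : Fact (Nat.card Gal(K'/K)).Prime := ⟨by rw [hcard]; exact hcyc.prime⟩
  obtain ⟨τ, hτ⟩ := Ideal.exists_smul_eq_of_isGaloisGroup v.asIdeal w₁.asIdeal w₂.asIdeal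
    Gal(K'/K)
  rcases Subgroup.eq_bot_or_eq_top_of_prime_card (MulAction.stabilizer Gal(K'/K) w₁.asIdeal)
    with hbot | htop
  · have hmem : g ∈ MulAction.stabilizer Gal(K'/K) w₁.asIdeal := MulAction.mem_stabilizer_iff.2 hg
    rw [hbot] at hmem
    exact Subgroup.mem_bot.1 hmem
  · exfalso
    have hmem : τ ∈ MulAction.stabilizer Gal(K'/K) w₁.asIdeal := by rw [htop]; trivial
    have := MulAction.mem_stabilizer_iff.1 hmem
    rw [hτ] at this
    exact hne (HeightOneSpectrum.ext this.symm)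

/-- **ENUM-EXISTS** (the body of `H311.EnumExistsC311`, VERBATIM). -/
theorem enumExists388 (K K' : Type) [Field K] [NumberField K] [Field K'] [NumberField K']
    [Algebra K K'] :
    T6.T6Out →
    ∀ D : CompData K K', IsCompData D → IsCycExt K K' D.l →
      ∀ T₀ : Finset (HeightOneSpectrum (𝓞 K)), UnramOut305 (K' := K') T₀ →
      ∀ v : HeightOneSpectrum (𝓞 K), v ∉ T₀ →
        (∃ w₁ w₂ : HeightOneSpectrum (𝓞 K'),
          PlaceOver K K' v w₁ ∧ PlaceOver K K' v w₂ ∧ w₁ ≠ w₂) →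
        ∃ (w : ℕ → HeightOneSpectrum (𝓞 K'))
          (i : ∀ j : ℕ, v.adicCompletion K ≃+* (w j).adicCompletion K'),
          (∀ j : ℕ, PlaceOver K K' v (w j)) ∧ (∀ j : ℕ, T5.PlaceRel D.s (w (j + 1)) (w j)) ∧
          (∀ j : ℕ, 0 < j → j < D.l → w j ≠ w 0) ∧
          (∀ (j : ℕ) (x : K), i j (algebraMap K (v.adicCompletion K) x)
            = algebraMap K' ((w j).adicCompletion K') (algebraMap K K' x)) ∧
          (∀ (j : ℕ) (x : v.adicCompletion K), Valued.v (i j x) = Valued.v x) := by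
  intro hT6 D hD hcyc T₀ hun v hv hex
  obtain ⟨w₁, w₂, h₁, h₂, hne⟩ := hex
  obtain ⟨-, -, -, -, -, -, -, hIS, -⟩ := hT6
  have hfix : ∀ y : K, D.s.σ (algebraMap K K' y) = algebraMap K K' y := fun y =>
    (hD.cyc.fixed _).1 ((hD.base _).2 ⟨y, rfl⟩)
  obtain ⟨s, hs⟩ : ∃ s : Gal(K'/K), ∀ x : K', s x = D.s.σ x :=
    ⟨AlgEquiv.ofRingEquiv (f := D.s.σ) hfix, fun _ => rfl⟩
  have hsmul : ∀ x : 𝓞 K', RingOfIntegers.mapRingEquiv D.s.σ x = s • x := by
    intro x
    apply RingOfIntegers.ext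
    rw [coe_smulE388, hs]
    rfl
  have hw : ∀ j : ℕ, PlaceOver K K' v (smulPlace388 ((s ^ j)⁻¹) w₁) :=
    fun j => placeOver_smul388 h₁ _
  have hexi : ∀ j : ℕ, ∃ i : v.adicCompletion K ≃+*
      (smulPlace388 ((s ^ j)⁻¹) w₁).adicCompletion K',
      (∀ x : K, i (algebraMap K (v.adicCompletion K) x)
        = algebraMap K' ((smulPlace388 ((s ^ j)⁻¹) w₁).adicCompletion K')
          (algebraMap K K' x)) ∧
      ∀ x : v.adicCompletion K, Valued.v (i x) = Valued.v x :=
    fun j => hIS K K' v (smulPlace388 ((s ^ j)⁻¹) w₁) (fun x => hw j x _ rfl)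
      (absNorm_split388 hcyc h₁ h₂ hne (hw j)) (hun v hv _ (hw j))
  choose i hi1 hi2 using hexi
  refine ⟨fun j => smulPlace388 ((s ^ j)⁻¹) w₁, i, hw, ?_, ?_, hi1, hi2⟩
  · intro j
    show (smulPlace388 ((s ^ j)⁻¹) w₁).asIdeal
      = Ideal.map (RingOfIntegers.mapRingEquiv D.s.σ) (smulPlace388 ((s ^ (j + 1))⁻¹) w₁).asIdeal
    rw [map_eq_smul388 (RingOfIntegers.mapRingEquiv D.s.σ) s hsmul, smulPlace_asIdeal388,
      smulPlace_asIdeal388, smul_smul]
    congr 1
    rw [pow_succ]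
    group
  · intro j hj hjl heq
    have h0 : (smulPlace388 ((s ^ j)⁻¹) w₁).asIdeal = (smulPlace388 ((s ^ 0)⁻¹) w₁).asIdeal :=
      congrArg HeightOneSpectrum.asIdeal heq
    rw [smulPlace_asIdeal388, smulPlace_asIdeal388, pow_zero, inv_one, one_smul] at h0
    have h3 : s ^ j = 1 := inv_eq_one.1 (stab_trivial388 hcyc h₁ h₂ hne _ h0)
    obtain ⟨x, hx⟩ := hD.cyc.faithful j hj hjl
    apply hx
    rw [← pow_apply388 D.s.σ s hs j x, h3]
    rfl

/-! ## Appendix: the equation lemmas of the definition of this file are realised HERE -/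

theorem eqns_realised_enum388 : True := by
  have _h1 := @smulPlace388.eq_1
  have _h2 := @smulPlace388.eq_def
  have _h3 := @smulPlace388.eq_unfold
  trivial

end Fermat.Agent.LT.T7.H388

end
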