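import Mathlib
import Fermat.Agent.LT.T7.H305.MatchCut
import Fermat.Agent.LT.T7.H159.GoodUnitTw

/-!
# Row LT, tower T7, leaf C2.7.11 `UnitMatchC305` (helper388, SPARE): PROVED VERBATIM

OFF-MAIN.  No hole, nothing assumed.  ADDITIVE (new names only, suffix `388`).

    unitMatchC388 (K K') : H305.UnitMatchC305 K K'

Spec: `T7/H305/MatchCut.lean` (helper305@56ddcdc02, sha256 0f302b81) on `MatchSpec.lean` v2
(0e8798b2).  Assets: helper159 `T7/H159/GoodUnitTw.lean` (`unitFn159`, `isBC_unitFn159`,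
`unitFn_apply159`), helper944 `inU_mul944`, `inU_inv944` (byte-identical copies).

Proof.  At the places of `T` nothing changes (`ext305` is the old component: a place of `K'`
lies over ONE place of `K`).  At `v ∈ S \ T` the levels are `0` and all components are the unit
`1_{GL₂(𝒪)}`:
* invariance, finite support: `GL₂(𝒪)` is a group, one coset;
* `split`: `1 ∘ i_j = 1` (`i_j` preserves the valuation), `1 * 1 = 1` (one coset);
* `inert`: the ramification index of the given local datum is `1` (evaluate `val_i` at the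
  element of `UnramOut305`), `N w = (N v)^l` (`T6.InstExtC`, again with index `1`),
  `T6.InstLocalC` on both sides, `T6.FundLemmaC` for the unit (`isBC_unitFn159`).
No definition of an imported module is unfolded by `unfold` / `simp [·]` / `rw [·]`.
-/

set_option autoImplicit false

open AutomorphicForm IsDedekindDomain NumberField MeasureTheory

noncomputable section

namespace Fermat.Agent.LT.T7.H388

open Fermat.Agent.LT.H556 Fermat.Agent.LT.H556.A0 Fermat.Agent.LT.T7 Fermat.Agent.LT.T7.H305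
open Fermat.Agent.LT

/-! ## 1. The unit element (abstract local field) -/

section Local

variable {k : Type} [Field k] [Valued k T6.Γ₀]

theorem unit305_of388 {g : GL (Fin 2) k} (h : T6.InU 0 g) : unit305 g = 1 := if_pos h

theorem unit305_of_not388 {g : GL (Fin 2) k} (h : ¬ T6.InU 0 g) : unit305 g = 0 := if_neg h

theorem inU_of_unit305_ne388 {g : GL (Fin 2) k} (h : unit305 g ≠ 0) : T6.InU 0 g := by
  by_contra hn
  exact h (unit305_of_not388 hn)

theorem unit305_eq388 : (unit305 : GL (Fin 2) k → ℂ) = fun g => H159.unitFn159 (T6.cartan g) := by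
  funext g
  by_cases h : T6.InU 0 g
  · rw [unit305_of388 h, H159.unitFn_of_inU159 g h]
  · rw [unit305_of_not388 h]
    by_contra hne
    exact h (H159.inU_of_unitFn_ne159 g (Ne.symm hne))

theorem inU_one388 : T6.InU 0 (1 : GL (Fin 2) k) :=
  H159.inU_zero_of_det159 1 (fun i j => T6.H687.v_one_apply_le_one_h687 i j) (by simp)

theorem isBiInv_unit388 : T6.IsBiInv (T6.InU 0) (unit305 : GL (Fin 2) k → ℂ) := by
  intro u u' g hu hu'
  by_cases hg : T6.InU 0 g
  · rw [unit305_of388 hg,
      unit305_of388 (T6.H944.inU_mul944 0 _ _ (T6.H944.inU_mul944 0 _ _ hu hg) hu')]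
  · have hn : ¬ T6.InU 0 (u * g * u') := by
      intro h
      apply hg
      have h1 := T6.H944.inU_mul944 0 _ _
        (T6.H944.inU_mul944 0 _ _ (T6.H944.inU_inv944 0 _ hu) h) (T6.H944.inU_inv944 0 _ hu')
      have e : u⁻¹ * (u * g * u') * u'⁻¹ = g := by group
      rwa [e] at h1
    rw [unit305_of_not388 hg, unit305_of_not388 hn]

theorem hasFinSupp_unit388 : T6.HasFinSupp (T6.InU 0) (unit305 : GL (Fin 2) k → ℂ) :=
  ⟨{1}, fun g hg =>
    ⟨1, Finset.mem_singleton_self 1, g, inU_of_unit305_ne388 hg, (one_mul g).symm⟩⟩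

theorem isConv_unit388 :
    T6.IsConv (T6.InU 0) (unit305 : GL (Fin 2) k → ℂ) unit305 unit305 := by
  intro g
  refine ⟨{1}, ?_, ?_, ?_⟩
  · intro h hh h' hh' _
    rw [Finset.mem_singleton.1 hh, Finset.mem_singleton.1 hh']
  · intro h hne
    have h1 : unit305 h ≠ 0 := left_ne_zero_of_mul hne
    exact ⟨1, Finset.mem_singleton_self 1, h, inU_of_unit305_ne388 h1, (one_mul h).symm⟩
  · rw [Finset.sum_singleton, unit305_of388 inU_one388, one_mul, inv_one, one_mul]

theorem isConvProd_unit388 (l : ℕ) :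
    T6.IsConvProd (T6.InU 0) l (fun _ => (unit305 : GL (Fin 2) k → ℂ)) unit305 :=
  ⟨fun _ => unit305, rfl, fun _ _ => isConv_unit388, rfl⟩

end Local

section Map

variable {k k' : Type} [Field k] [Valued k T6.Γ₀] [Field k'] [Valued k' T6.Γ₀]

theorem one_apply_map388 (i : k →+* k') (a b : Fin 2) :
    (1 : Matrix (Fin 2) (Fin 2) k') a b = i ((1 : Matrix (Fin 2) (Fin 2) k) a b) := by
  by_cases h : a = b
  · rw [h, Matrix.one_apply_eq, Matrix.one_apply_eq, map_one]
  · rw [Matrix.one_apply_ne h, Matrix.one_apply_ne h, map_zero]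

theorem inU_map_iff388 (i : k →+* k') (hv : ∀ x : k, Valued.v (i x) = Valued.v x) (n : ℕ)
    (g : GL (Fin 2) k) :
    T6.InU n (Matrix.GeneralLinearGroup.map i g) ↔ T6.InU n g := by
  have key : ∀ (h : GL (Fin 2) k) (a b : Fin 2),
      Valued.v (((Matrix.GeneralLinearGroup.map i h : GL (Fin 2) k') :
          Matrix (Fin 2) (Fin 2) k') a b - (1 : Matrix (Fin 2) (Fin 2) k') a b)
        = Valued.v ((h : Matrix (Fin 2) (Fin 2) k) a b - (1 : Matrix (Fin 2) (Fin 2) k) a b) := by
    intro h a b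
    have e : ((Matrix.GeneralLinearGroup.map i h : GL (Fin 2) k') :
        Matrix (Fin 2) (Fin 2) k') a b = i ((h : Matrix (Fin 2) (Fin 2) k) a b) := rfl
    rw [e, one_apply_map388 i a b, ← map_sub, hv]
  have hinv : (Matrix.GeneralLinearGroup.map i g)⁻¹ = Matrix.GeneralLinearGroup.map i g⁻¹ :=
    (map_inv (Matrix.GeneralLinearGroup.map i) g).symm
  constructor
  · intro h a b
    have := h a b
    rw [hinv, key g a b, key g⁻¹ a b] at this
    exact this
  · intro h a b
    have := h a b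
    rw [hinv, key g a b, key g⁻¹ a b]
    exact this

theorem unit305_map388 (i : k →+* k') (hv : ∀ x : k, Valued.v (i x) = Valued.v x)
    (g : GL (Fin 2) k) : unit305 (Matrix.GeneralLinearGroup.map i g) = unit305 g := by
  by_cases h : T6.InU 0 g
  · rw [unit305_of388 h, unit305_of388 ((inU_map_iff388 i hv 0 g).2 h)]
  · rw [unit305_of_not388 h, unit305_of_not388 (fun h' => h ((inU_map_iff388 i hv 0 g).1 h'))]

end Map

/-! ## 2. Places -/

section Global

variable {K K' : Type} [Field K] [NumberField K] [Field K'] [NumberField K'] [Algebra K K']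

theorem coe_algebraMap388 (x : 𝓞 K) :
    ((algebraMap (𝓞 K) (𝓞 K') x : 𝓞 K') : K') = algebraMap K K' (x : K) := rfl

theorem placeOver_iff388 {v : HeightOneSpectrum (𝓞 K)} {w : HeightOneSpectrum (𝓞 K')}
    (h : PlaceOver K K' v w) (x : 𝓞 K) :
    x ∈ v.asIdeal ↔ algebraMap (𝓞 K) (𝓞 K') x ∈ w.asIdeal :=
  h x (algebraMap (𝓞 K) (𝓞 K') x) (coe_algebraMap388 x)

/-- A place of `K'` lies over ONE place of `K`. -/
theorem placeOver_unique388 {v v' : HeightOneSpectrum (𝓞 K)} {w : HeightOneSpectrum (𝓞 K')}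
    (h : PlaceOver K K' v w) (h' : PlaceOver K K' v' w) : v = v' := by
  apply HeightOneSpectrum.ext
  ext x
  rw [placeOver_iff388 h, placeOver_iff388 h']

theorem mem_over_iff388 {T : Finset (HeightOneSpectrum (𝓞 K))}
    {T' : Finset (HeightOneSpectrum (𝓞 K'))} (hT : IsOver305 T T')
    {v : HeightOneSpectrum (𝓞 K)} {w : HeightOneSpectrum (𝓞 K')} (h : PlaceOver K K' v w) :
    w ∈ T' ↔ v ∈ T :=
  (hT w).trans ⟨fun ⟨v', hv', h'⟩ => by rwa [placeOver_unique388 h h'], fun hv => ⟨v, hv, h⟩⟩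

/-- `w` contains the image of `v`: `w` lies over `v`. -/
theorem placeOver_of_le388 {v : HeightOneSpectrum (𝓞 K)} {w : HeightOneSpectrum (𝓞 K')}
    (h : ∀ x : 𝓞 K, x ∈ v.asIdeal → algebraMap (𝓞 K) (𝓞 K') x ∈ w.asIdeal) :
    PlaceOver K K' v w := by
  have hle : v.asIdeal ≤ Ideal.comap (algebraMap (𝓞 K) (𝓞 K')) w.asIdeal := fun x hx => h x hx
  have hmax : v.asIdeal.IsMaximal := v.isMaximal
  have hne : Ideal.comap (algebraMap (𝓞 K) (𝓞 K')) w.asIdeal ≠ ⊤ :=
    (Ideal.IsPrime.comap (algebraMap (𝓞 K) (𝓞 K'))).ne_top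
  have heq : v.asIdeal = Ideal.comap (algebraMap (𝓞 K) (𝓞 K')) w.asIdeal :=
    hmax.eq_of_le hne hle
  intro x y hy
  have hyx : y = algebraMap (𝓞 K) (𝓞 K') x := by
    apply RingOfIntegers.ext
    rw [hy, coe_algebraMap388]
  rw [hyx, heq, Ideal.mem_comap]

theorem valued_algebraMap388 {F : Type} [Field F] [NumberField F]
    (v : HeightOneSpectrum (𝓞 F)) (x : F) :
    Valued.v (algebraMap F (v.adicCompletion F) x) = v.valuation F x :=
  HeightOneSpectrum.valuedAdicCompletion_eq_valuation' v x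

/-- **The ramification index is one at an unramified place.** -/
theorem e_eq_one388 {v : HeightOneSpectrum (𝓞 K)} {w : HeightOneSpectrum (𝓞 K')}
    (hun : ∃ x : 𝓞 K, x ∈ v.asIdeal ∧ algebraMap (𝓞 K) (𝓞 K') x ∉ w.asIdeal ^ 2)
    {e : ℕ} (he : 0 < e) (i : v.adicCompletion K →+* w.adicCompletion K')
    (hi : ∀ x : K, i (algebraMap K (v.adicCompletion K) x)
      = algebraMap K' (w.adicCompletion K') (algebraMap K K' x))
    (hval : ∀ x : v.adicCompletion K, Valued.v (i x) = Valued.v x ^ e) : e = 1 := by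
  obtain ⟨x, hxv, hxw⟩ := hun
  have ha : Valued.v (algebraMap K (v.adicCompletion K) (x : K)) ≤ WithZero.exp (-(1 : ℤ)) := by
    rw [valued_algebraMap388 v (x : K)]
    have h1 : v.valuation K (algebraMap (𝓞 K) K x) = v.intValuation x :=
      HeightOneSpectrum.valuation_of_algebraMap v x
    have h2 : v.intValuation x ≤ WithZero.exp (-((1 : ℕ) : ℤ)) :=
      (HeightOneSpectrum.intValuation_le_pow_iff_mem v x 1).2 (by rwa [pow_one])
    rw [show (x : K) = algebraMap (𝓞 K) K x from rfl, h1]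
    simpa using h2
  have hb : ¬ Valued.v (algebraMap K' (w.adicCompletion K') (algebraMap K K' (x : K)))
      ≤ WithZero.exp (-(2 : ℤ)) := by
    rw [valued_algebraMap388 w (algebraMap K K' (x : K))]
    have h1 : w.valuation K' (algebraMap (𝓞 K') K' (algebraMap (𝓞 K) (𝓞 K') x))
        = w.intValuation (algebraMap (𝓞 K) (𝓞 K') x) :=
      HeightOneSpectrum.valuation_of_algebraMap w _
    rw [show algebraMap K K' (x : K) = algebraMap (𝓞 K') K' (algebraMap (𝓞 K) (𝓞 K') x) from rfl,
      h1]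
    intro h
    apply hxw
    have h2 : w.intValuation (algebraMap (𝓞 K) (𝓞 K') x) ≤ WithZero.exp (-((2 : ℕ) : ℤ)) := by
      simpa using h
    exact (HeightOneSpectrum.intValuation_le_pow_iff_mem w _ 2).1 h2
  have hab : Valued.v (algebraMap K' (w.adicCompletion K') (algebraMap K K' (x : K)))
      = Valued.v (algebraMap K (v.adicCompletion K) (x : K)) ^ e := by
    rw [← hi, hval]
  by_contra hne
  have he2 : 2 ≤ e := by omega
  apply hb
  rw [hab]
  calc Valued.v (algebraMap K (v.adicCompletion K) (x : K)) ^ e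
      ≤ WithZero.exp (-(1 : ℤ)) ^ e := pow_le_pow_left₀ zero_le ha e
    _ = WithZero.exp (e • (-(1 : ℤ))) := (WithZero.exp_nsmul e _).symm
    _ ≤ WithZero.exp (-(2 : ℤ)) := by
        rw [WithZero.exp_le_exp]
        simp only [nsmul_eq_mul, mul_neg, mul_one, neg_le_neg_iff]
        exact_mod_cast he2

/-- **`N w = (N v)^l`** at an unramified place with ONE place above it (`T6.InstExtC`). -/
theorem absNorm_inert388 (hExt : T6.InstExtC) {l : ℕ} (hcyc : IsCycExt K K' l)
    {v : HeightOneSpectrum (𝓞 K)} {w : HeightOneSpectrum (𝓞 K')} (hvw : PlaceOver K K' v w)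
    (honly : ∀ w' : HeightOneSpectrum (𝓞 K'), PlaceOver K K' v w' → w' = w)
    (hun : ∃ x : 𝓞 K, x ∈ v.asIdeal ∧ algebraMap (𝓞 K) (𝓞 K') x ∉ w.asIdeal ^ 2) :
    Ideal.absNorm w.asIdeal = Ideal.absNorm v.asIdeal ^ l := by
  haveI := hcyc.galois
  have hcard : Nat.card (K' ≃ₐ[K] K') = l := by
    rw [IsGalois.card_aut_eq_finrank, hcyc.degree]
  haveI : Fact l.Prime := ⟨hcyc.prime⟩
  haveI : IsCyclic (K' ≃ₐ[K] K') := isCyclic_of_prime_card hcard
  obtain ⟨g, hg⟩ := IsCyclic.exists_generator (α := K' ≃ₐ[K] K')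
  have hprime : (Module.finrank K K').Prime := by rw [hcyc.degree]; exact hcyc.prime
  obtain ⟨e', i', sw', hi', -, hext', hN⟩ := hExt K K' g hg hprime v w (placeOver_iff388 hvw)
    (fun w' h' => honly w' (placeOver_of_le388 h'))
  have he' : e' = 1 := e_eq_one388 hun hext'.e_pos i' hi' hext'.val_i
  rw [hN, he', Nat.div_one, hcyc.degree]

end Global

/-! ## 3. The leaf -/

/-- **LEAF C2.7.11 = UNIT-MATCH**, VERBATIM. -/
theorem unitMatchC388 (K K' : Type) [Field K] [NumberField K] [Field K'] [NumberField K']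
    [Algebra K K'] : UnitMatchC305 K K' := by
  intro hT6 D _ hcyc _ _ μc _ T₀ hunr n m hlev T S T' S' hT₀T _ hTT' _ φ₀ Φ f₀ F h
  obtain ⟨-, -, -, -, -, hIL, hIE, -, -, -, -, -, -, hFL, -⟩ := hT6
  have hup : ∀ (v : HeightOneSpectrum (𝓞 K)) (w : HeightOneSpectrum (𝓞 K')),
      PlaceOver K K' v w → v ∈ T → ext305 T' φ₀ w = φ₀ w :=
    fun v w hvw hv => if_pos ((mem_over_iff388 hTT' hvw).2 hv)
  have hup' : ∀ (v : HeightOneSpectrum (𝓞 K)) (w : HeightOneSpectrum (𝓞 K')),
      PlaceOver K K' v w → v ∉ T → ext305 T' φ₀ w = unit305 :=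
    fun v w hvw hv => if_neg (fun hw => hv ((mem_over_iff388 hTT' hvw).1 hw))
  have hdn : ∀ v : HeightOneSpectrum (𝓞 K), v ∈ T → ext305 T f₀ v = f₀ v :=
    fun v hv => if_pos hv
  have hdn' : ∀ v : HeightOneSpectrum (𝓞 K), v ∉ T → ext305 T f₀ v = unit305 :=
    fun v hv => if_neg hv
  have hm0 : ∀ v : HeightOneSpectrum (𝓞 K), v ∉ T → m v = 0 :=
    fun v hv => hlev.1 v (fun h0 => hv (hT₀T h0))
  have hn0 : ∀ (v : HeightOneSpectrum (𝓞 K)) (w : HeightOneSpectrum (𝓞 K')),
      PlaceOver K K' v w → v ∉ T → n w = 0 :=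
    fun v w hvw hv => hlev.2 v w (fun h0 => hv (hT₀T h0)) hvw
  refine ⟨?_, ?_, h.arch_up, h.arch_down, ?_, ?_, h.arch⟩
  · -- inv_up
    intro v _ w hvw
    by_cases hv : v ∈ T
    · rw [hup v w hvw hv]
      exact h.inv_up v hv w hvw
    · rw [hup' v w hvw hv, hn0 v w hvw hv]
      exact ⟨isBiInv_unit388, hasFinSupp_unit388⟩
  · -- inv_down
    intro v _
    by_cases hv : v ∈ T
    · rw [hdn v hv]
      exact h.inv_down v hv
    · rw [hdn' v hv, hm0 v hv]
      exact ⟨isBiInv_unit388, hasFinSupp_unit388⟩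
  · -- inert
    intro v _ w hvw honly e i sw hi hs hext
    by_cases hv : v ∈ T
    · rw [hup v w hvw hv, hdn v hv]
      exact h.inert v hv w hvw honly e i sw hi hs hext
    · have hun := hunr v (fun h0 => hv (hT₀T h0)) w hvw
      have he1 : e = 1 := e_eq_one388 hun hext.e_pos i hi hext.val_i
      subst he1
      have hN := absNorm_inert388 hIE hcyc hvw honly hun
      have hk : T6.IsLocalField (v.adicCompletion K) (Ideal.absNorm v.asIdeal) := hIL K v
      have hk' : T6.IsLocalField (w.adicCompletion K') (Ideal.absNorm v.asIdeal ^ D.l) := by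
        have := hIL K' w
        rwa [hN] at this
      rw [hup' v w hvw hv, hdn' v hv, hn0 v w hvw hv, hm0 v hv, unit305_eq388, unit305_eq388]
      exact ⟨fun δ γ c c' hreg hconj hc hc' =>
          hFL.1 (v.adicCompletion K) (w.adicCompletion K') _ _ i sw hk hk' hext hcyc.prime
            H159.unitFn159 H159.unitFn159 H159.isDominant_unitFn159 H159.isDominant_unitFn159
            (H159.isBC_unitFn159 _ _) δ γ c c' hreg trivial hconj hc hc',
        fun γ c' hreg hnn hc' =>
          hFL.2 (v.adicCompletion K) (w.adicCompletion K') _ _ i sw hk hk' hext hcyc.prime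
            H159.unitFn159 H159.unitFn159 H159.isDominant_unitFn159 H159.isDominant_unitFn159
            (H159.isBC_unitFn159 _ _) γ c' hreg hnn hc'⟩
  · -- split
    intro v _ w i hw hrel hne hi hval
    by_cases hv : v ∈ T
    · have e1 : ∀ j : ℕ, ext305 T' φ₀ (w j) = φ₀ (w j) := fun j => hup v (w j) (hw j) hv
      simp only [e1, hdn v hv]
      exact h.split v hv w i hw hrel hne hi hval
    · refine ⟨fun j => by rw [hn0 v (w j) (hw j) hv, hm0 v hv], ?_⟩
      have e1 : ∀ j : ℕ, ext305 T' φ₀ (w j) = unit305 := fun j => hup' v (w j) (hw j) hv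
      have e2 : ∀ (j : ℕ) (g : GL (Fin 2) (v.adicCompletion K)),
          unit305 (Matrix.GeneralLinearGroup.map
            ((i j : v.adicCompletion K ≃+* (w j).adicCompletion K') :
              v.adicCompletion K →+* (w j).adicCompletion K') g) = unit305 g :=
        fun j g => unit305_map388 _ (hval j) g
      simp only [e1, e2, hdn' v hv, hm0 v hv]
      exact isConvProd_unit388 D.l

end Fermat.Agent.LT.T7.H388

end
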