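import Mathlib
import Fermat.Agent.LT.T6.Spec

/-!
# Row LT, tower T7, asset for the leaf `SphSplitC893` (helper388): THE SATAKE TRANSFORM IS INJECTIVE

OFF-MAIN.  No hole, nothing assumed.  ADDITIVE (new names only, suffix `388`).  Imports:
Mathlib + `T6/Spec.lean` only.

    satake_linIndep388 : 0 < q → (∀ lam ∈ S, lam.2 ≤ lam.1) →
        (∀ x y ≠ 0, ∑ lam ∈ S, c lam * T6.satake q lam x y = 0) → ∀ lam ∈ S, c lam = 0
    satT_inj388 : 0 < q → T6.IsDominant A → T6.IsDominant A' →
        (∀ x y ≠ 0, A.sum (c * satake q lam x y) = A'.sum (c * satake q lam x y)) → A = A'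

Proof.  On the curve `(x, y) = (s ^ N, s)`, `N ≥ 2` large: `satake q (a, b) (s ^ N) s
= s ^ ((N + 1) b) * Q_{a - b}(s)` with a polynomial `Q_n` (`satQ388`, the recursion of
`T6.satPoly`) of degree `≤ N n` whose coefficient of `X ^ (N n)` is `(√q) ^ n ≠ 0`.  So the
term of `lam = (a, b)` has the top exponent `N a + b`, distinct for distinct `lam ∈ S`; the
coefficient of the largest one is `c lam * (√q) ^ (a - b)`.
-/

set_option autoImplicit false

noncomputable section

namespace Fermat.Agent.LT.T7.H388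

open Fermat.Agent.LT Polynomial

/-! ## The recursion of the Satake polynomials in two steps -/

theorem satPoly_zero388 (q : ℕ) (x y : ℂ) : T6.satPoly q x y 0 = 1 := T6.satPoly.eq_1 q x y

theorem satPoly_one388 (q : ℕ) (x y : ℂ) :
    T6.satPoly q x y 1 = ((Real.sqrt q : ℝ) : ℂ) * (x + y) := T6.satPoly.eq_2 q x y

theorem satPoly_two388 (q : ℕ) (x y : ℂ) :
    T6.satPoly q x y 2 = (((Real.sqrt q : ℝ) : ℂ) * (x + y)) ^ 2 - ((q : ℂ) + 1) * (x * y) :=
  T6.satPoly.eq_3 q x y

theorem satPoly_add_three388 (q : ℕ) (x y : ℂ) (n : ℕ) :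
    T6.satPoly q x y (n + 3) = ((Real.sqrt q : ℝ) : ℂ) * (x + y) * T6.satPoly q x y (n + 2)
      - (q : ℂ) * (x * y) * T6.satPoly q x y (n + 1) := T6.satPoly.eq_4 q x y n

/-- The constant of the recursion: `q + 1` at the first step, `q` afterwards. -/
def recC388 (q n : ℕ) : ℂ := if n = 0 then (q : ℂ) + 1 else (q : ℂ)

theorem satPoly_add_two388 (q : ℕ) (x y : ℂ) (n : ℕ) :
    T6.satPoly q x y (n + 2) = ((Real.sqrt q : ℝ) : ℂ) * (x + y) * T6.satPoly q x y (n + 1)
      - recC388 q n * (x * y) * T6.satPoly q x y n := by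
  rcases n with _ | n
  · show T6.satPoly q x y 2 = _
    rw [satPoly_two388, show (0 : ℕ) + 1 = 1 from rfl, satPoly_one388, satPoly_zero388]
    show _ = _ - (if (0 : ℕ) = 0 then (q : ℂ) + 1 else (q : ℂ)) * (x * y) * 1
    rw [if_pos rfl]
    ring
  · show T6.satPoly q x y (n + 3) = _
    rw [satPoly_add_three388]
    show _ = _ - (if n + 1 = 0 then (q : ℂ) + 1 else (q : ℂ)) * (x * y) * _
    rw [if_neg (Nat.succ_ne_zero n)]

/-! ## The polynomials on the curve `(X ^ N, X)` -/

/-- `Q_n = satPoly q (X ^ N) X n` as a polynomial. -/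
def satQ388 (q N : ℕ) : ℕ → Polynomial ℂ
  | 0 => 1
  | 1 => C ((Real.sqrt q : ℝ) : ℂ) * (X ^ N + X)
  | (n + 2) => C ((Real.sqrt q : ℝ) : ℂ) * (X ^ N + X) * satQ388 q N (n + 1)
      - C (recC388 q n) * (X ^ N * X) * satQ388 q N n

theorem satQ_zero388 (q N : ℕ) : satQ388 q N 0 = 1 := satQ388.eq_1 q N

theorem satQ_one388 (q N : ℕ) :
    satQ388 q N 1 = C ((Real.sqrt q : ℝ) : ℂ) * (X ^ N + X) := satQ388.eq_2 q N

theorem satQ_add_two388 (q N n : ℕ) :
    satQ388 q N (n + 2) = C ((Real.sqrt q : ℝ) : ℂ) * (X ^ N + X) * satQ388 q N (n + 1)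
      - C (recC388 q n) * (X ^ N * X) * satQ388 q N n := satQ388.eq_3 q N n

theorem satQ_eval388 (q N : ℕ) (s : ℂ) :
    ∀ n : ℕ, (satQ388 q N n).eval s = T6.satPoly q (s ^ N) s n := by
  have key : ∀ n : ℕ, (satQ388 q N n).eval s = T6.satPoly q (s ^ N) s n ∧
      (satQ388 q N (n + 1)).eval s = T6.satPoly q (s ^ N) s (n + 1) := by
    intro n
    induction n with
    | zero =>
      refine ⟨?_, ?_⟩
      · rw [satQ_zero388, satPoly_zero388, eval_one]
      · rw [show (0 : ℕ) + 1 = 1 from rfl, satQ_one388, satPoly_one388]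
        simp only [eval_mul, eval_C, eval_add, eval_pow, eval_X]
    | succ n ih =>
      refine ⟨ih.2, ?_⟩
      rw [show n + 1 + 1 = n + 2 from rfl, satQ_add_two388, satPoly_add_two388]
      simp only [eval_sub, eval_mul, eval_C, eval_add, eval_pow, eval_X]
      rw [ih.1, ih.2]
  exact fun n => (key n).1

/-- Coefficients of `X ^ k * P` above the degree. -/
theorem coeff_Xpow_mul_of_lt388 (P : Polynomial ℂ) (k D d : ℕ) (hP : P.natDegree ≤ D)
    (h : k + D < d) : (X ^ k * P).coeff d = 0 := by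
  apply coeff_eq_zero_of_natDegree_lt
  calc (X ^ k * P).natDegree ≤ (X ^ k : Polynomial ℂ).natDegree + P.natDegree := natDegree_mul_le
    _ ≤ k + D := Nat.add_le_add (natDegree_X_pow_le k) hP
    _ < d := h

theorem natDegree_Xpow_mul_le388 (P : Polynomial ℂ) (k D : ℕ) (hP : P.natDegree ≤ D) :
    (X ^ k * P).natDegree ≤ k + D :=
  calc (X ^ k * P).natDegree ≤ (X ^ k : Polynomial ℂ).natDegree + P.natDegree := natDegree_mul_le
    _ ≤ k + D := Nat.add_le_add (natDegree_X_pow_le k) hP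

/-- One step of the recursion: degree and top coefficient. -/
theorem step_top388 (N : ℕ) (hN : 2 ≤ N) (r c : ℂ) (m : ℕ) (P₁ P₂ : Polynomial ℂ)
    (h₁ : P₁.natDegree ≤ N * m) (h₂ : P₂.natDegree ≤ N * (m + 1)) :
    (C r * (X ^ N + X) * P₂ - C c * (X ^ N * X) * P₁).natDegree ≤ N * (m + 2) ∧
      (C r * (X ^ N + X) * P₂ - C c * (X ^ N * X) * P₁).coeff (N * (m + 2))
        = r * P₂.coeff (N * (m + 1)) := by
  have e1 : C r * (X ^ N + X) * P₂ = C r * (X ^ N * P₂) + C r * (X ^ 1 * P₂) := by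
    rw [pow_one]; ring
  have e2 : C c * (X ^ N * X) * P₁ = C c * (X ^ (N + 1) * P₁) := by
    rw [pow_succ]; ring
  have hmul : N * (m + 2) = N + N * (m + 1) := by ring
  have hmul' : N * (m + 1) = N + N * m := by ring
  rw [e1, e2]
  refine ⟨?_, ?_⟩
  · refine (natDegree_sub_le _ _).trans (max_le ((natDegree_add_le _ _).trans (max_le ?_ ?_)) ?_)
    · exact (natDegree_C_mul_le _ _).trans
        ((natDegree_Xpow_mul_le388 P₂ N _ h₂).trans (by omega))
    · exact (natDegree_C_mul_le _ _).trans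
        ((natDegree_Xpow_mul_le388 P₂ 1 _ h₂).trans (by omega))
    · exact (natDegree_C_mul_le _ _).trans
        ((natDegree_Xpow_mul_le388 P₁ (N + 1) _ h₁).trans (by omega))
  · rw [coeff_sub, coeff_add, coeff_C_mul, coeff_C_mul, coeff_C_mul,
      coeff_Xpow_mul_of_lt388 P₂ 1 _ _ h₂ (by omega),
      coeff_Xpow_mul_of_lt388 P₁ (N + 1) _ _ h₁ (by omega), mul_zero, mul_zero, add_zero,
      sub_zero, coeff_X_pow_mul', if_pos (by omega)]
    congr 2
    omega

theorem satQ_top388 (q N : ℕ) (hN : 2 ≤ N) :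
    ∀ n : ℕ, (satQ388 q N n).natDegree ≤ N * n ∧
      (satQ388 q N n).coeff (N * n) = ((Real.sqrt q : ℝ) : ℂ) ^ n := by
  have key : ∀ n : ℕ, ((satQ388 q N n).natDegree ≤ N * n ∧
        (satQ388 q N n).coeff (N * n) = ((Real.sqrt q : ℝ) : ℂ) ^ n) ∧
      ((satQ388 q N (n + 1)).natDegree ≤ N * (n + 1) ∧
        (satQ388 q N (n + 1)).coeff (N * (n + 1)) = ((Real.sqrt q : ℝ) : ℂ) ^ (n + 1)) := by
    intro n
    induction n with
    | zero =>
      refine ⟨⟨?_, ?_⟩, ?_, ?_⟩
      · rw [satQ_zero388, natDegree_one]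
        exact Nat.zero_le _
      · rw [satQ_zero388, mul_zero, coeff_one_zero, pow_zero]
      · rw [show (0 : ℕ) + 1 = 1 from rfl, satQ_one388, mul_one]
        refine (natDegree_C_mul_le _ _).trans ((natDegree_add_le _ _).trans (max_le ?_ ?_))
        · exact natDegree_X_pow_le N
        · exact natDegree_X_le.trans (by omega)
      · rw [show (0 : ℕ) + 1 = 1 from rfl, satQ_one388, mul_one, coeff_C_mul, coeff_add,
          coeff_X_pow, if_pos rfl, coeff_X, if_neg (by omega), add_zero, mul_one, pow_one]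
    | succ n ih =>
      refine ⟨ih.2, ?_⟩
      have h := step_top388 N hN ((Real.sqrt q : ℝ) : ℂ) (recC388 q n) n (satQ388 q N n)
        (satQ388 q N (n + 1)) ih.1.1 ih.2.1
      rw [show n + 1 + 1 = n + 2 from rfl, satQ_add_two388]
      refine ⟨h.1, ?_⟩
      rw [h.2, ih.2.2, pow_succ' _ (n + 1)]
  exact fun n => (key n).1

/-! ## The Satake functions on the curve -/

theorem satake_def388 (q : ℕ) (lam : ℤ × ℤ) (x y : ℂ) :
    T6.satake q lam x y = (x * y) ^ lam.2 * T6.satPoly q x y (lam.1 - lam.2).toNat := rfl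

theorem satake_curve388 (q N : ℕ) (s : ℂ) (lam : ℤ × ℤ) :
    T6.satake q lam (s ^ N) s
      = s ^ (((N : ℤ) + 1) * lam.2) * (satQ388 q N (lam.1 - lam.2).toNat).eval s := by
  rw [satake_def388, satQ_eval388, ← pow_succ, ← zpow_natCast s (N + 1), ← zpow_mul]
  push_cast
  rfl

theorem sqrt_pow_ne_zero388 (q : ℕ) (hq : 0 < q) (n : ℕ) :
    ((Real.sqrt q : ℝ) : ℂ) ^ n ≠ 0 := by
  apply pow_ne_zero
  rw [Ne, Complex.ofReal_eq_zero]
  exact (Real.sqrt_pos.2 (by exact_mod_cast hq)).ne'

/-- In a non-empty family of dominant weights some coefficient of a vanishing combination of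
Satake functions vanishes (the one of the top exponent on the curve). -/
theorem satake_top_zero388 (q : ℕ) (hq : 0 < q) (S : Finset (ℤ × ℤ))
    (hS : ∀ lam ∈ S, lam.2 ≤ lam.1) (c : ℤ × ℤ → ℂ)
    (h : ∀ x y : ℂ, x ≠ 0 → y ≠ 0 → ∑ lam ∈ S, c lam * T6.satake q lam x y = 0)
    (hne : S.Nonempty) : ∃ lam ∈ S, c lam = 0 := by
  classical
  -- the bound and the weight of the curve
  set B : ℤ := ∑ lam ∈ S, (|lam.1| + |lam.2|) with hB
  have hB0 : 0 ≤ B := Finset.sum_nonneg (fun lam _ => add_nonneg (abs_nonneg _) (abs_nonneg _))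
  have hb : ∀ lam ∈ S, |lam.1| + |lam.2| ≤ B := fun lam hlam =>
    Finset.single_le_sum (f := fun lam : ℤ × ℤ => |lam.1| + |lam.2|)
      (fun lam _ => add_nonneg (abs_nonneg _) (abs_nonneg _)) hlam
  obtain ⟨N, hN⟩ : ∃ N : ℕ, (N : ℤ) = 2 + 2 * B := ⟨(2 + 2 * B).toNat, Int.toNat_of_nonneg (by omega)⟩
  have hN2 : 2 ≤ N := by omega
  obtain ⟨M, hM⟩ : ∃ M : ℕ, (M : ℤ) = ((N : ℤ) + 1) * B :=
    ⟨(((N : ℤ) + 1) * B).toNat, Int.toNat_of_nonneg (by positivity)⟩
  -- the largest top exponent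
  obtain ⟨top, htop, hmax⟩ := Finset.exists_max_image S
    (fun lam : ℤ × ℤ => (N : ℤ) * lam.1 + lam.2) hne
  have hlt : ∀ lam ∈ S, lam ≠ top → (N : ℤ) * lam.1 + lam.2 < (N : ℤ) * top.1 + top.2 := by
    intro lam hlam hne'
    refine lt_of_le_of_ne (hmax lam hlam) (fun heq => hne' ?_)
    have h1 := hb lam hlam
    have h2 := hb top htop
    have hdvd : (N : ℤ) ∣ top.2 - lam.2 := ⟨lam.1 - top.1, by linarith⟩
    have habs : |top.2 - lam.2| < (N : ℤ) := by
      have := abs_sub top.2 lam.2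
      have := abs_nonneg top.1
      have := abs_nonneg lam.1
      omega
    have h0 : top.2 - lam.2 = 0 := Int.eq_zero_of_abs_lt_dvd hdvd habs
    have h3 : (N : ℤ) * (lam.1 - top.1) = 0 := by linarith
    have h4 : lam.1 - top.1 = 0 := by
      rcases mul_eq_zero.1 h3 with h5 | h5
      · omega
      · exact h5
    ext
    · omega
    · omega
  -- the exponents
  set e : ℤ × ℤ → ℕ := fun lam => ((M : ℤ) + ((N : ℤ) + 1) * lam.2).toNat with he
  set n : ℤ × ℤ → ℕ := fun lam => (lam.1 - lam.2).toNat with hn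
  have hepos : ∀ lam ∈ S, 0 ≤ (M : ℤ) + ((N : ℤ) + 1) * lam.2 := by
    intro lam hlam
    have h1 := hb lam hlam
    have h2 : -B ≤ lam.2 := by
      have := neg_abs_le lam.2
      have := abs_nonneg lam.1
      omega
    rw [hM]
    nlinarith
  have hee : ∀ lam ∈ S, ((e lam : ℕ) : ℤ) = (M : ℤ) + ((N : ℤ) + 1) * lam.2 :=
    fun lam hlam => Int.toNat_of_nonneg (hepos lam hlam)
  have hnn : ∀ lam ∈ S, ((n lam : ℕ) : ℤ) = lam.1 - lam.2 :=
    fun lam hlam => Int.toNat_of_nonneg (by have := hS lam hlam; omega)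
  have hkey : ∀ lam ∈ S, ((e lam + N * n lam : ℕ) : ℤ) = (M : ℤ) + ((N : ℤ) * lam.1 + lam.2) := by
    intro lam hlam
    push_cast
    rw [hee lam hlam, hnn lam hlam]
    ring
  -- the polynomial
  set Pi0 : Polynomial ℂ := ∑ lam ∈ S, C (c lam) * (X ^ e lam * satQ388 q N (n lam)) with hPi0
  have heval : ∀ s : ℂ, s ≠ 0 → Pi0.eval s = 0 := by
    intro s hs
    have h1 := h (s ^ N) s (pow_ne_zero N hs) hs
    have h2 : Pi0.eval s = s ^ M * ∑ lam ∈ S, c lam * T6.satake q lam (s ^ N) s := by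
      rw [hPi0, eval_finsetSum, Finset.mul_sum]
      refine Finset.sum_congr rfl (fun lam hlam => ?_)
      rw [eval_mul, eval_C, eval_mul, eval_pow, eval_X, satake_curve388,
        ← zpow_natCast s (e lam), hee lam hlam, zpow_add₀ hs, zpow_natCast]
      ring
    rw [h2, h1, mul_zero]
  have hzero : Pi0 = 0 := by
    have hX : X * Pi0 = 0 := by
      apply Polynomial.funext
      intro s
      rw [eval_mul, eval_X, eval_zero]
      by_cases hs : s = 0
      · rw [hs, zero_mul]
      · rw [heval s hs, mul_zero]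
    rcases mul_eq_zero.1 hX with h1 | h1
    · exact absurd h1 X_ne_zero
    · exact h1
  -- the top coefficient
  have hcoef : Pi0.coeff (e top + N * n top) = c top * ((Real.sqrt q : ℝ) : ℂ) ^ n top := by
    rw [hPi0, finsetSum_coeff, Finset.sum_eq_single top]
    · rw [coeff_C_mul, coeff_X_pow_mul', if_pos (Nat.le_add_right _ _), Nat.add_sub_cancel_left,
        (satQ_top388 q N hN2 (n top)).2]
    · intro lam hlam hne'
      rw [coeff_C_mul, coeff_Xpow_mul_of_lt388 _ (e lam) (N * n lam) _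
        (satQ_top388 q N hN2 (n lam)).1, mul_zero]
      have h1 := hkey lam hlam
      have h2 := hkey top htop
      have h3 := hlt lam hlam hne'
      have : ((e lam + N * n lam : ℕ) : ℤ) < ((e top + N * n top : ℕ) : ℤ) := by
        rw [h1, h2]; linarith
      exact_mod_cast this
    · intro hcon
      exact absurd htop hcon
  refine ⟨top, htop, ?_⟩
  rw [hzero, coeff_zero] at hcoef
  rcases mul_eq_zero.1 hcoef.symm with h1 | h1
  · exact h1
  · exact absurd h1 (sqrt_pow_ne_zero388 q hq _)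

/-- **The Satake functions of the dominant weights are linearly independent.** -/
theorem satake_linIndep388 (q : ℕ) (hq : 0 < q) (S : Finset (ℤ × ℤ))
    (hS : ∀ lam ∈ S, lam.2 ≤ lam.1) (c : ℤ × ℤ → ℂ)
    (h : ∀ x y : ℂ, x ≠ 0 → y ≠ 0 → ∑ lam ∈ S, c lam * T6.satake q lam x y = 0) :
    ∀ lam ∈ S, c lam = 0 := by
  classical
  intro mu hmu
  by_contra hcmu
  have hne : (S.filter (fun lam => c lam ≠ 0)).Nonempty :=
    ⟨mu, Finset.mem_filter.2 ⟨hmu, hcmu⟩⟩
  obtain ⟨lam, hlam, h0⟩ := satake_top_zero388 q hq (S.filter (fun lam => c lam ≠ 0))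
    (fun lam hlam => hS lam (Finset.mem_filter.1 hlam).1) c (by
      intro x y hx hy
      rw [Finset.sum_filter_of_ne]
      · exact h x y hx hy
      · intro lam _ hne'
        exact left_ne_zero_of_mul hne') hne
  exact (Finset.mem_filter.1 hlam).2 h0

/-- **The Satake transform is injective** on the spherical functions (T6 form). -/
theorem satT_inj388 (q : ℕ) (hq : 0 < q) (A A' : (ℤ × ℤ) →₀ ℂ) (hA : T6.IsDominant A)
    (hA' : T6.IsDominant A')
    (h : ∀ x y : ℂ, x ≠ 0 → y ≠ 0 →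
      (A.sum fun lam c => c * T6.satake q lam x y)
        = A'.sum fun lam c => c * T6.satake q lam x y) : A = A' := by
  classical
  have hsum : ∀ (F : (ℤ × ℤ) →₀ ℂ) (x y : ℂ),
      (F.sum fun lam c => c * T6.satake q lam x y)
        = ∑ lam ∈ A.support ∪ A'.support ∪ F.support, F lam * T6.satake q lam x y := by
    intro F x y
    rw [Finsupp.sum]
    refine Finset.sum_subset Finset.subset_union_right (fun lam _ hlam => ?_)
    rw [Finsupp.notMem_support_iff.1 hlam, zero_mul]
  have hSA : A.support ∪ A'.support ∪ A.support = A.support ∪ A'.support := by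
    ext lam
    simp only [Finset.mem_union]
    tauto
  have hSA' : A.support ∪ A'.support ∪ A'.support = A.support ∪ A'.support := by
    ext lam
    simp only [Finset.mem_union]
    tauto
  have hlin := satake_linIndep388 q hq (A.support ∪ A'.support)
    (fun lam hlam => by
      rcases Finset.mem_union.1 hlam with h1 | h1
      · exact hA lam h1
      · exact hA' lam h1)
    (fun lam => A lam - A' lam) (by
      intro x y hx hy
      have h1 := h x y hx hy
      rw [hsum A x y, hsum A' x y, hSA, hSA'] at h1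
      simp only [sub_mul]
      rw [Finset.sum_sub_distrib, h1, sub_self])
  ext lam
  by_cases hlam : lam ∈ A.support ∪ A'.support
  · exact sub_eq_zero.1 (hlin lam hlam)
  · rw [Finset.mem_union, not_or] at hlam
    rw [Finsupp.notMem_support_iff.1 hlam.1, Finsupp.notMem_support_iff.1 hlam.2]

/-! ## Appendix: the equation lemmas of the definitions of this module, realised once -/

theorem satQ_eqns_realised388 : True := by
  have _h0 := @satQ388.eq_def
  have _h1 := @satQ388.eq_1
  have _h2 := @satQ388.eq_2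
  have _h3 := @satQ388.eq_3
  have _h4 := @recC388.eq_1
  have _h5 := @recC388.eq_def
  trivial

end Fermat.Agent.LT.T7.H388

end
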