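import Mathlib
import Fermat.Agent.LT.T7.H893.SupplySphSpec
import Fermat.Agent.LT.T3.H681.SatakeShape
import Fermat.Agent.LT.T7.H388.Enum
import Fermat.Agent.LT.T7.H388.SatInj

/-!
# Row LT, tower T7, leaf T7.L2.1.H2b.3c `SphSplitC893` (helper388, SPARE): PROVED

OFF-MAIN.  No hole, nothing assumed.  ADDITIVE (new names only, suffix `388`).

    sphSplitC388 (K K') : H893.SphSplitC893 K K'                          (VERBATIM)

Proof.
* the enumeration in the order of the orbit with the identifications: `enumExists388`
  (`T7/H388/Enum.lean`); it is injective on `range l` (`w j = σ (w (j + 1))` and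
  `w j ≠ w 0` for `0 < j < l`);
* the levels are `0`;
* the identifications preserve the valuations, so `cartan (map (i j) g) = cartan g`
  (`cartan_map388`) and the components `φ₀ (w j) ∘ map (i j)` are the spherical functions
  `A (w j) ∘ cartan` on `GL₂(K_v)`;
* the convolution product of spherical functions is spherical with Satake transform the product
  (`T3.H681.split_sph681`, helper681, on the closed `T6.SatakeEigenC`);
* the Satake transform is injective (`satT_inj388`, `T7/H388/SatInj.lean`), so the product is
  `f = Av ∘ cartan`.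
-/

set_option autoImplicit false
set_option linter.unusedSectionVars false

open AutomorphicForm IsDedekindDomain NumberField MeasureTheory

noncomputable section

namespace Fermat.Agent.LT.T7.H388

open Fermat.Agent.LT.H556 Fermat.Agent.LT.H556.A0 Fermat.Agent.LT.T7 Fermat.Agent.LT.T7.H305
open Fermat.Agent.LT

section Map

variable {k k' : Type} [Field k] [Field k'] [Valued k T6.Γ₀] [Valued k' T6.Γ₀]

theorem entryMax_map388 (i : k →+* k') (hv : ∀ x : k, Valued.v (i x) = Valued.v x)
    (g : GL (Fin 2) k) : T6.entryMax (Matrix.GeneralLinearGroup.map i g) = T6.entryMax g := by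
  show Finset.univ.sup' Finset.univ_nonempty
      (fun p : Fin 2 × Fin 2 => Valued.v (((Matrix.GeneralLinearGroup.map i g : GL (Fin 2) k') :
        Matrix (Fin 2) (Fin 2) k') p.1 p.2))
    = Finset.univ.sup' Finset.univ_nonempty
      (fun p : Fin 2 × Fin 2 => Valued.v ((g : Matrix (Fin 2) (Fin 2) k) p.1 p.2))
  refine Finset.sup'_congr _ rfl (fun p _ => ?_)
  have e : ((Matrix.GeneralLinearGroup.map i g : GL (Fin 2) k') :
      Matrix (Fin 2) (Fin 2) k') p.1 p.2 = i ((g : Matrix (Fin 2) (Fin 2) k) p.1 p.2) := rfl
  rw [e, hv]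

theorem det_map388 (i : k →+* k') (g : GL (Fin 2) k) :
    ((Matrix.GeneralLinearGroup.map i g : GL (Fin 2) k') : Matrix (Fin 2) (Fin 2) k').det
      = i (g : Matrix (Fin 2) (Fin 2) k).det := by
  have e : ((Matrix.GeneralLinearGroup.map i g : GL (Fin 2) k') :
      Matrix (Fin 2) (Fin 2) k') = (g : Matrix (Fin 2) (Fin 2) k).map i := rfl
  rw [e, ← RingHom.mapMatrix_apply, ← RingHom.map_det]

theorem cartan_map388 (i : k →+* k') (hv : ∀ x : k, Valued.v (i x) = Valued.v x)
    (g : GL (Fin 2) k) : T6.cartan (Matrix.GeneralLinearGroup.map i g) = T6.cartan g := by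
  show (WithZero.log (T6.entryMax (Matrix.GeneralLinearGroup.map i g))
        - WithZero.log (Valued.v ((Matrix.GeneralLinearGroup.map i g : GL (Fin 2) k') :
            Matrix (Fin 2) (Fin 2) k').det),
      - WithZero.log (T6.entryMax (Matrix.GeneralLinearGroup.map i g)))
    = (WithZero.log (T6.entryMax g)
        - WithZero.log (Valued.v (g : Matrix (Fin 2) (Fin 2) k).det),
      - WithZero.log (T6.entryMax g))
  rw [entryMax_map388 i hv, det_map388, hv]

end Map

variable (K K' : Type) [Field K] [NumberField K] [Field K'] [NumberField K'] [Algebra K K']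

/-- **LEAF T7.L2.1.H2b.3c `SphSplitC893`, PROVED.** -/
theorem sphSplitC388 : H893.SphSplitC893 K K' := by
  intro hT6 D hD hcyc _ _ T₀ hun v hv hex n m hn hm φ₀ f A Av hf hφ hsat
  obtain ⟨w, i, hw, hrel, hne0, hi1, hi2⟩ := enumExists388 K K' hT6 D hD hcyc T₀ hun v hv hex
  -- the enumeration is injective on `range l`
  have hstep : ∀ j j' : ℕ, w (j + 1) = w (j' + 1) → w j = w j' := by
    intro j j' h
    have h1 : (w j).asIdeal = (w j').asIdeal := by
      rw [show (w j).asIdeal = _ from hrel j, show (w j').asIdeal = _ from hrel j', h]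
    exact HeightOneSpectrum.ext h1
  have hshift : ∀ d j : ℕ, w (j + d) = w j → w d = w 0 := by
    intro d j
    induction j with
    | zero =>
      intro h
      rwa [Nat.zero_add] at h
    | succ j ih =>
      intro h
      apply ih
      apply hstep
      rw [show j + d + 1 = j + 1 + d by omega]
      exact h
  have hinj : ∀ j j' : ℕ, j < D.l → j' < D.l → w j = w j' → j = j' := by
    intro j j' hj hj' h
    by_contra hne
    rcases Nat.lt_or_gt_of_ne hne with h1 | h1
    · refine hne0 (j' - j) (by omega) (by omega) (hshift (j' - j) j ?_)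
      rw [show j + (j' - j) = j' by omega]
      exact h.symm
    · refine hne0 (j - j') (by omega) (by omega) (hshift (j - j') j' ?_)
      rw [show j' + (j - j') = j by omega]
      exact h
  refine ⟨w, i, hw, hrel, hne0, hi1, hi2, fun j => by rw [hn (w j) (hw j), hm], ?_⟩
  rw [hm]
  -- the components are spherical functions downstairs
  have hcomp : (fun (j : ℕ) (g : GL (Fin 2) (v.adicCompletion K)) => φ₀ (w j)
        (Matrix.GeneralLinearGroup.map ((i j : v.adicCompletion K ≃+* _) :
          v.adicCompletion K →+* (w j).adicCompletion K') g))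
      = fun (j : ℕ) (g : GL (Fin 2) (v.adicCompletion K)) => A (w j) (T6.cartan g) := by
    funext j g
    rw [(hφ (w j) (hw j)).2, cartan_map388 _ (fun x => hi2 j x)]
  rw [hcomp]
  -- the product is spherical, with Satake transform the product
  obtain ⟨Av', hAv', hprod, hsat', -⟩ := T3.H681.split_sph681 v D.l hcyc.prime.pos
    (fun j => A (w j)) (fun j _ => (hφ (w j) (hw j)).1)
  have hq : 0 < Ideal.absNorm v.asIdeal := by
    rw [Nat.pos_iff_ne_zero, Ne, Ideal.absNorm_eq_zero_iff]
    exact v.ne_bot
  have hEq : Av = Av' := by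
    refine satT_inj388 (Ideal.absNorm v.asIdeal) hq Av Av' hf.1 hAv' (fun x y hx hy => ?_)
    rw [hsat' x y hx hy]
    exact hsat w hw hinj x y hx hy
  have hff : f = fun g => Av' (T6.cartan g) := by
    funext g
    rw [hf.2 g, hEq]
  rw [hff]
  exact hprod

end Fermat.Agent.LT.T7.H388

end
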